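import Mathlib
import Fermat.Prelude.Def_JacJ1Iface
import Fermat.Agent.S25.H567.GeomIntegral

/-!
# Row S26, block CUBE, leaf BC (helper911): base change of a relative group law

Mathlib + Prelude + S25 `H567/GeomIntegral` (tensor products of fields over an algebraically
closed field are domains).

* `bcPt`, `bcLift` : for `ρ : Spec R' ⟶ Spec R` and `f : A ⟶ Spec R`, points of
  `pullback.snd f ρ` with values in `t : T ⟶ Spec R'` are the points of `f` with values in
  `t ≫ ρ` (functor of points of a base change);
* `bcLaw G ρ` : the base change of a `RelativeGroupLaw`, `bcLaw_isCommutative`,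
  `bcLaw_mul_fst` (compatibility with the projection);
* `connectedSpace_of_connectedFibres`, `connectedSpace_pullback_of_isAlgClosed` : a connected
  scheme over an algebraically closed field stays connected after base change to a field;
* `bcBundle` : base change of an `AbelianSchemePropertyBundle` along a field extension of an
  algebraically closed field.
-/

set_option autoImplicit false
set_option linter.unusedSectionVars false
set_option linter.style.haveILetI false

universe u

open CategoryTheory CategoryTheory.Limits AlgebraicGeometry NeronModelInfra GoodReductionJacobian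

namespace Fermat.Agent.S26.H911

noncomputable section

/-! ## Functor of points of a base change -/

section Points

variable {B B' A : Scheme.{u}} (f : A ⟶ B) (ρ : B' ⟶ B)

/-- A point of the base change, pushed to a point of the original scheme. -/
def bcPt {T : Scheme.{u}} {t : T ⟶ B'} (a : SchemeHomOver t (pullback.snd f ρ)) :
    SchemeHomOver (t ≫ ρ) f :=
  ⟨a.1 ≫ pullback.fst f ρ, by rw [Category.assoc, pullback.condition, ← Category.assoc, a.2]⟩

/-- A point of the original scheme over `t ≫ ρ`, lifted to the base change. -/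
def bcLift {T : Scheme.{u}} (t : T ⟶ B') (b : SchemeHomOver (t ≫ ρ) f) :
    SchemeHomOver t (pullback.snd f ρ) :=
  ⟨pullback.lift b.1 t b.2, pullback.lift_snd _ _ _⟩

@[simp]
theorem bcPt_coe {T : Scheme.{u}} {t : T ⟶ B'} (a : SchemeHomOver t (pullback.snd f ρ)) :
    (bcPt f ρ a).1 = a.1 ≫ pullback.fst f ρ := rfl

@[simp]
theorem bcLift_coe_fst {T : Scheme.{u}} (t : T ⟶ B') (b : SchemeHomOver (t ≫ ρ) f) :
    (bcLift f ρ t b).1 ≫ pullback.fst f ρ = b.1 :=
  pullback.lift_fst _ _ _

@[simp]
theorem bcPt_bcLift {T : Scheme.{u}} (t : T ⟶ B') (b : SchemeHomOver (t ≫ ρ) f) :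
    bcPt f ρ (bcLift f ρ t b) = b :=
  Subtype.ext (pullback.lift_fst _ _ _)

@[simp]
theorem bcLift_bcPt {T : Scheme.{u}} {t : T ⟶ B'} (a : SchemeHomOver t (pullback.snd f ρ)) :
    bcLift f ρ t (bcPt f ρ a) = a := by
  apply Subtype.ext
  apply pullback.hom_ext
  · exact pullback.lift_fst _ _ _
  · exact (pullback.lift_snd _ _ _).trans a.2.symm

theorem bcPt_injective {T : Scheme.{u}} {t : T ⟶ B'} :
    Function.Injective (bcPt f ρ : SchemeHomOver t (pullback.snd f ρ) → _) := by
  intro a b h
  rw [← bcLift_bcPt f ρ a, h, bcLift_bcPt]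

/-- Naturality of `bcLift` in the test scheme. -/
theorem schemeHomOverComp_bcLift {T T' : Scheme.{u}} (t : T ⟶ B') (ψ : T' ⟶ T)
    (b : SchemeHomOver (t ≫ ρ) f) :
    schemeHomOverComp ψ rfl (bcLift f ρ t b) =
      bcLift f ρ (ψ ≫ t) (schemeHomOverComp ψ (Category.assoc _ _ _).symm b) := by
  apply Subtype.ext
  apply pullback.hom_ext
  · have h1 := bcLift_coe_fst f ρ t b
    have h2 := bcLift_coe_fst f ρ (ψ ≫ t) (schemeHomOverComp ψ (Category.assoc _ _ _).symm b)
    rw [h2, schemeHomOverComp_coe, Category.assoc, h1, schemeHomOverComp_coe]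
  · have h1 := (bcLift f ρ t b).2
    have h2 := (bcLift f ρ (ψ ≫ t) (schemeHomOverComp ψ (Category.assoc _ _ _).symm b)).2
    rw [h2, schemeHomOverComp_coe, Category.assoc, h1]

/-- Naturality of `bcPt` in the test scheme. -/
theorem bcPt_schemeHomOverComp {T T' : Scheme.{u}} (t : T ⟶ B') (ψ : T' ⟶ T)
    (a : SchemeHomOver t (pullback.snd f ρ)) :
    bcPt f ρ (schemeHomOverComp ψ rfl a) =
      schemeHomOverComp ψ (Category.assoc _ _ _).symm (bcPt f ρ a) := by
  apply Subtype.ext
  simp [bcPt]

end Points

/-! ## Base change of a group law -/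

section Law

variable {R R' : Type u} [CommRing R] [CommRing R'] {A : Scheme.{u}}
  {f : A ⟶ Spec (CommRingCat.of R)} (G : RelativeGroupLaw R f)
  (ρ : Spec (CommRingCat.of R') ⟶ Spec (CommRingCat.of R))

/-- The base change of a relative group law along `ρ : Spec R' ⟶ Spec R`: on the functor of
points, `(A ×_R R')(T) = A(T)`. -/
def bcLaw : RelativeGroupLaw R' (pullback.snd f ρ) where
  mul t a b := bcLift f ρ t (G.mul (t ≫ ρ) (bcPt f ρ a) (bcPt f ρ b))
  one t := bcLift f ρ t (G.one (t ≫ ρ))
  inv t a := bcLift f ρ t (G.inv (t ≫ ρ) (bcPt f ρ a))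
  mul_assoc t x y z := by simp only [bcPt_bcLift, G.mul_assoc]
  one_mul t x := by simp only [bcPt_bcLift, G.one_mul, bcLift_bcPt]
  mul_one t x := by simp only [bcPt_bcLift, G.mul_one, bcLift_bcPt]
  inv_mul_cancel t x := by simp only [bcPt_bcLift, G.inv_mul_cancel]
  mul_natural t t' ψ hψ x y := by
    subst hψ
    rw [schemeHomOverComp_bcLift, bcPt_schemeHomOverComp, bcPt_schemeHomOverComp,
      G.mul_natural (t ≫ ρ) ((ψ ≫ t) ≫ ρ) ψ (Category.assoc _ _ _).symm]

@[simp]
theorem bcLaw_mul {T : Scheme.{u}} (t : T ⟶ Spec (CommRingCat.of R'))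
    (a b : SchemeHomOver t (pullback.snd f ρ)) :
    (bcLaw G ρ).mul t a b = bcLift f ρ t (G.mul (t ≫ ρ) (bcPt f ρ a) (bcPt f ρ b)) := rfl

theorem bcLaw_mul_fst {T : Scheme.{u}} (t : T ⟶ Spec (CommRingCat.of R'))
    (a b : SchemeHomOver t (pullback.snd f ρ)) :
    ((bcLaw G ρ).mul t a b).1 ≫ pullback.fst f ρ =
      (G.mul (t ≫ ρ) (bcPt f ρ a) (bcPt f ρ b)).1 := by
  rw [bcLaw_mul, bcLift_coe_fst]

theorem bcLaw_one_fst {T : Scheme.{u}} (t : T ⟶ Spec (CommRingCat.of R')) :
    ((bcLaw G ρ).one t).1 ≫ pullback.fst f ρ = (G.one (t ≫ ρ)).1 :=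
  bcLift_coe_fst f ρ t _

theorem bcLaw_inv_fst {T : Scheme.{u}} (t : T ⟶ Spec (CommRingCat.of R'))
    (a : SchemeHomOver t (pullback.snd f ρ)) :
    ((bcLaw G ρ).inv t a).1 ≫ pullback.fst f ρ = (G.inv (t ≫ ρ) (bcPt f ρ a)).1 :=
  bcLift_coe_fst f ρ t _

theorem bcLaw_isCommutative (hG : G.IsCommutative) : (bcLaw G ρ).IsCommutative := by
  intro T t x y
  rw [bcLaw_mul, bcLaw_mul, hG (t ≫ ρ)]

end Law

/-! ## Connectedness -/

section Connected

variable {K : Type u} [Field K]

/-- A scheme over a field whose fibres are connected is connected. -/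
theorem connectedSpace_of_connectedFibres {A : Scheme.{u}} (f : A ⟶ Spec (CommRingCat.of K))
    (h : ∀ s : Spec (CommRingCat.of K), _root_.IsConnected (f.base ⁻¹' {s})) :
    ConnectedSpace A := by
  have hs := h (Classical.arbitrary _)
  have huniv : (f.base ⁻¹' {Classical.arbitrary (Spec (CommRingCat.of K))}) = Set.univ := by
    ext x
    simp only [Set.mem_preimage, Set.mem_singleton_iff, Set.mem_univ, iff_true]
    exact Subsingleton.elim _ _
  rw [huniv] at hs
  exact connectedSpace_iff_univ.mpr hs

/-- The fibres of a connected scheme over a field are connected. -/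
theorem connectedFibres_of_connectedSpace {A : Scheme.{u}} [ConnectedSpace A]
    (f : A ⟶ Spec (CommRingCat.of K)) (s : Spec (CommRingCat.of K)) :
    _root_.IsConnected (f.base ⁻¹' {s}) := by
  have huniv : (f.base ⁻¹' {s}) = Set.univ := by
    ext x
    simp only [Set.mem_preimage, Set.mem_singleton_iff, Set.mem_univ, iff_true]
    exact Subsingleton.elim _ _
  rw [huniv]
  exact isConnected_univ

/-- A geometrically irreducible morphism is geometrically connected. -/
theorem geometricallyConnected_of_geometricallyIrreducible {X Y : Scheme.{u}} (g : X ⟶ Y)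
    [GeometricallyIrreducible g] : GeometricallyConnected g := by
  constructor
  intro L _ y Z fst snd hP
  have : IrreducibleSpace Z :=
    GeometricallyIrreducible.geometrically_irreducibleSpace (f := g) y fst snd hP
  infer_instance

variable [IsAlgClosed K]

/-- Over an algebraically closed field, a connected scheme stays connected after base change
to any field. -/
theorem connectedSpace_pullback_of_isAlgClosed {A : Scheme.{u}} [ConnectedSpace A]
    (f : A ⟶ Spec (CommRingCat.of K)) (K' : Type u) [Field K']
    (ρ : Spec (CommRingCat.of K') ⟶ Spec (CommRingCat.of K)) :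
    ConnectedSpace ↥(pullback f ρ) := by
  haveI : GeometricallyIntegral ρ := Fermat.Agent.S25.H567.geometricallyIntegral_of_field K' ρ
  haveI : GeometricallyConnected ρ := geometricallyConnected_of_geometricallyIrreducible ρ
  infer_instance

/-- Base change of the property bundle of an abelian scheme along a field extension of an
algebraically closed field. -/
theorem bcBundle {A : Scheme.{u}} {f : A ⟶ Spec (CommRingCat.of K)}
    (h : AbelianSchemePropertyBundle K f) (K' : Type u) [Field K']
    (ρ : Spec (CommRingCat.of K') ⟶ Spec (CommRingCat.of K)) :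
    AbelianSchemePropertyBundle K' (pullback.snd f ρ) := by
  haveI := h.smooth
  haveI := h.proper
  haveI : ConnectedSpace A := connectedSpace_of_connectedFibres f h.connectedFibres
  haveI : ConnectedSpace ↥(pullback f ρ) := connectedSpace_pullback_of_isAlgClosed f K' ρ
  obtain ⟨G⟩ := h.hasGroupLaw
  exact
    { smooth := inferInstance
      proper := inferInstance
      connectedFibres := connectedFibres_of_connectedSpace _
      hasGroupLaw := ⟨bcLaw G ρ⟩ }

end Connected

end

end Fermat.Agent.S26.H911
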