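import Fermat.Agent.S26.SpecCube
import Fermat.Agent.S26.H911.BCLaw

/-!
# Row S26, block CUBE, leaf BC (helper911): `Stmt.BaseChange`

Base change of an abelian variety `X : AbVar K` (`K` algebraically closed) along a ring
homomorphism `φ : K →+* K'` to a field `K'`:
`X' := pullback X.str (Spec.map φ)` with the group law `bcLaw` induced on the functor of points.

* `AbVar.baseChange X K' ρ : AbVar K'` (any field `K'`, `ρ : Spec K' ⟶ Spec K`);
* `baseChange : Stmt.BaseChange K` (the frozen leaf of `SpecCube.lean`).
-/

set_option autoImplicit false
set_option linter.unusedSectionVars false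
set_option linter.style.haveILetI false

universe u

open CategoryTheory CategoryTheory.Limits AlgebraicGeometry NeronModelInfra GoodReductionJacobian

namespace Fermat.Agent.S26.H911

noncomputable section

variable {K : Type u} [Field K] [IsAlgClosed K]

/-- The base change of an abelian variety over an algebraically closed field to a field. -/
def abVarBaseChange (X : AbVar K) (K' : Type u) [Field K']
    (ρ : Spec (CommRingCat.of K') ⟶ Spec (CommRingCat.of K)) : AbVar K' where
  A := pullback X.str ρ
  str := pullback.snd X.str ρ
  law := bcLaw X.law ρ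
  comm := bcLaw_isCommutative X.law ρ X.comm
  bundle := bcBundle X.bundle K' ρ
  dim := X.dim
  smoothDim :=
    (smoothOfRelativeDimension_isStableUnderBaseChange X.dim).of_isPullback
      (IsPullback.of_hasPullback X.str ρ) X.smoothDim

@[simp]
theorem abVarBaseChange_dim (X : AbVar K) (K' : Type u) [Field K']
    (ρ : Spec (CommRingCat.of K') ⟶ Spec (CommRingCat.of K)) :
    (abVarBaseChange X K' ρ).dim = X.dim := rfl

/-- **Leaf CUBE:BC.** -/
theorem baseChange : Stmt.BaseChange K := by
  intro X K' _ _ φ
  refine ⟨abVarBaseChange X K' (Spec.map (CommRingCat.ofHom φ)),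
    pullback.fst X.str (Spec.map (CommRingCat.ofHom φ)), pullback.condition,
    IsPullback.of_hasPullback _ _, rfl, ?_⟩
  intro S s a b
  exact bcLaw_mul_fst X.law (Spec.map (CommRingCat.ofHom φ)) s a b

end

end Fermat.Agent.S26.H911
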