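import Fermat.Agent.S26.Cube.Spec
import Fermat.Agent.S26.H911.BaseChange

/-!
# Row S26, block CUBE, leaf BC in the sub-architect's shape (helper911)

`baseChangeExists : Cube.BaseChangeExists K` (`Cube/Spec.lean`, helper778): base change of an
abelian variety over an algebraically closed field `K` along ANY `ψ : Spec F ⟶ Spec K`, `F` a
field.  Adapter of `abVarBaseChange` (`H911/BaseChange.lean`).
-/

set_option autoImplicit false
set_option linter.unusedSectionVars false

universe u

open CategoryTheory CategoryTheory.Limits AlgebraicGeometry NeronModelInfra GoodReductionJacobian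

namespace Fermat.Agent.S26.H911

noncomputable section

variable {K : Type u} [Field K] [IsAlgClosed K]

/-- **Leaf CUBE:BC** in the shape of `Cube/Spec.lean`. -/
theorem baseChangeExists : Cube.BaseChangeExists K := by
  intro X F _ ψ
  refine ⟨abVarBaseChange X F ψ, pullback.fst X.str ψ, pullback.condition,
    IsPullback.of_hasPullback _ _, ?_⟩
  intro S σ a b
  exact bcLaw_mul_fst X.law ψ σ a b

/-- The base change has the same dimension (not part of `Cube.BaseChangeExists`). -/
theorem baseChangeExists_dim (X : AbVar K) (F : Type u) [Field F]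
    (ψ : Spec (CommRingCat.of F) ⟶ Spec (CommRingCat.of K)) :
    ∃ (X' : AbVar F) (π : X'.A ⟶ X.A) (hπ : π ≫ X.str = X'.str ≫ ψ),
      IsPullback π X'.str X.str ψ ∧ X'.dim = X.dim ∧
      (∀ {S : Scheme.{u}} (σ : S ⟶ Spec (CommRingCat.of F)) (a b : SchemeHomOver σ X'.str),
        (X'.law.mul σ a b).1 ≫ π =
          (X.law.mul (σ ≫ ψ) ⟨a.1 ≫ π, by rw [Category.assoc, hπ, ← Category.assoc, a.2]⟩
            ⟨b.1 ≫ π, by rw [Category.assoc, hπ, ← Category.assoc, b.2]⟩).1) ∧
      (∀ {S : Scheme.{u}} (σ : S ⟶ Spec (CommRingCat.of F)),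
        (X'.law.one σ).1 ≫ π = (X.law.one (σ ≫ ψ)).1) ∧
      (∀ {S : Scheme.{u}} (σ : S ⟶ Spec (CommRingCat.of F)) (a : SchemeHomOver σ X'.str),
        (X'.law.inv σ a).1 ≫ π =
          (X.law.inv (σ ≫ ψ) ⟨a.1 ≫ π, by rw [Category.assoc, hπ, ← Category.assoc, a.2]⟩).1) :=
  ⟨abVarBaseChange X F ψ, pullback.fst X.str ψ, pullback.condition,
    IsPullback.of_hasPullback _ _, rfl, fun σ a b => bcLaw_mul_fst X.law ψ σ a b,
    fun σ => bcLaw_one_fst X.law ψ σ, fun σ a => bcLaw_inv_fst X.law ψ σ a⟩

end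

end Fermat.Agent.S26.H911
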